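import Mathlib
import Fermat.Agent.LT.T7.H621.ConjSpec

/-!
# Row LT, tower T7, sub-leaf T7.02.1 `ConjPlaceC621` (helper637)

OFF-MAIN.  Proof of the frozen Prop `Fermat.Agent.LT.T7.H621.ConjPlaceC621 K` of
`LT/T7/H621/ConjSpec.lean` (helper621@c8d835172, byte-identical copy), for every number field `K`:

1. `PlaceImage s v v' → v = finPull930 s v'` (both primes have the same underlying ideal);
2. `¬ v' ∣ s(𝔫) → ¬ s⁻¹ v' ∣ 𝔫` (divisibility of ideals of a Dedekind domain is containment);
3. `w ↦ w ∘ s` preserves the type of an infinite place.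

Mathlib and the Spec closure only.  No `sorry`.
-/

set_option autoImplicit false
set_option linter.unusedSectionVars false

open IsDedekindDomain NumberField

noncomputable section

namespace Fermat.Agent.LT.T7.H637

open Fermat.Agent.LT.T1.H930 Fermat.Agent.LT.T7.H621

variable {K : Type} [Field K] [NumberField K]

/-- The underlying ideal of `finPull930 s v'`, elementwise. -/
theorem mem_finPull637 (s : K ≃+* K) (v' : HeightOneSpectrum (𝓞 K)) (x : 𝓞 K) :
    x ∈ (finPull930 s v').asIdeal ↔ RingOfIntegers.mapRingEquiv s x ∈ v'.asIdeal :=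
  Iff.rfl

/-- `s (s⁻¹ y) = y` on the ring of integers. -/
theorem mapRingEquiv_symm_cancel637 (s : K ≃+* K) (y : 𝓞 K) :
    RingOfIntegers.mapRingEquiv s (RingOfIntegers.mapRingEquiv s.symm y) = y := by
  apply RingOfIntegers.ext
  show s (s.symm (y : K)) = y
  exact s.apply_symm_apply _

/-- Part (1): `PlaceImage s v v'` forces `v = s⁻¹ v'`. -/
theorem eq_finPull_of_placeImage637 (s : K ≃+* K) (v v' : HeightOneSpectrum (𝓞 K))
    (h : T7.PlaceImage s v v') : v = finPull930 s v' := by
  apply HeightOneSpectrum.ext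
  ext x
  rw [mem_finPull637]
  exact h x (RingOfIntegers.mapRingEquiv s x) rfl

/-- Part (2), positive form: `s⁻¹ v' ∣ 𝔫 → v' ∣ s(𝔫)`. -/
theorem dvd_conjLevel_of_finPull_dvd637 (s : K ≃+* K) (𝔫 : Ideal (𝓞 K))
    (v' : HeightOneSpectrum (𝓞 K)) (h : (finPull930 s v').asIdeal ∣ 𝔫) :
    v'.asIdeal ∣ conjLevel621 s 𝔫 := by
  rw [Ideal.dvd_iff_le] at h ⊢
  intro y hy
  rw [mem_conjLevel621] at hy
  have h1 := h hy
  rw [mem_finPull637, mapRingEquiv_symm_cancel637] at h1
  exact h1

/-- Part (3): `w ∘ s` is complex if `w` is, real if `w` is. -/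
theorem infPull_type637 (s : K ≃+* K) (w : InfinitePlace K) :
    (w.IsComplex → (infPull930 s w).IsComplex) ∧ (w.IsReal → (infPull930 s w).IsReal) := by
  have hR : (infPull930 s w).IsReal ↔ w.IsReal := InfinitePlace.isReal_comap_iff s
  refine ⟨fun hw => ?_, fun hw => hR.2 hw⟩
  rw [← InfinitePlace.not_isReal_iff_isComplex] at hw ⊢
  exact fun h => hw (hR.1 h)

/-- **T7.02.1 `ConjPlaceC621`**, for every number field. -/
theorem conjPlaceC637 (K : Type) [Field K] [NumberField K] : ConjPlaceC621 K := by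
  intro s
  refine ⟨fun v v' h => eq_finPull_of_placeImage637 s v v' h, fun 𝔫 v' h h' => ?_,
    fun w => infPull_type637 s w⟩
  exact h (dvd_conjLevel_of_finPull_dvd637 s 𝔫 v' h')

end Fermat.Agent.LT.T7.H637

end
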